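import Mathlib
import Fermat.Agent.TW.Aut.SeamCoinvRelMod
import Fermat.Agent.M59.S38g.Big.CoinvRel

/-!
M59 / box [C + S38g], BIG-SYSTEM TWIN (helper14), prefix `m59mb_`.  Twin of `twe_scrm_big`
(`TW/Aut/SeamCoinvRelMod.lean`): `5 ≤ p`, `¬ p ∣ M` become `p ≠ 2` + `hPE`.  Main's
`twe_scrm_aug2`, `twe_scrm_rho_eq` are reused.
-/

set_option autoImplicit false
set_option linter.unusedSectionVars false
set_option maxSynthPendingDepth 3

open scoped MatrixGroups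
open Matrix.SpecialLinearGroup CongruenceSubgroup

namespace Fermat.Agent.M59

open IsLocalRing Module Fermat.Agent.JT3 Fermat.Agent.TW Fermat.Agent.LR

noncomputable section

section big

variable {𝒪 : Type} [CommRing 𝒪] [IsDomain 𝒪] [IsDiscreteValuationRing 𝒪]
  [IsAdicComplete (maximalIdeal 𝒪) 𝒪] [CharZero 𝒪]

/-- **`m59mb_scr_big` in the vocabulary of `SeamMod`** (twin of `twe_scrm_big`). -/
theorem m59mb_scrm_big (p : ℕ) (Q Th : Finset ℕ) (M : ℕ) [NeZero M] (hQ : ∀ t ∈ Q, Nat.Prime t)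
    (hQM : ∀ t ∈ Q, t ∣ M) (hTh : ∀ t ∈ Th, Nat.Prime t) (hThM : ∀ t ∈ Th, t ∣ M)
    (hdisj : Disjoint Q Th) (hp : p.Prime) (hp2 : p ≠ 2)
    (hPE : ∀ γ : SL(2, ℤ), γ ∈ Gamma0 M → lrpd_tr γ ^ 2 ≤ 4 →
      γ ∈ twe_GamH M (twe_di_pair p Q Th M hQ hQM hTh hThM).ker)
    (hpO : (p : 𝒪) ∈ maximalIdeal 𝒪)
    {I : Type*} {q : I → ℕ}
    (F : twe_sm_Frame M (twe_di_pair p Q Th M hQ hQM hTh hThM).ker q)
    (hinj : Function.Injective q) (a : I → 𝒪) (i₀ : I)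
    (hne : residue 𝒪 (a i₀) ≠ ((q i₀ + 1 : ℕ) : ResidueField 𝒪)) :
    ∃ c1 : ↥(twe_pr_prim (twe_sm_TY 𝒪 F) a) →ₗ[𝒪]
        ↥(twe_pr_prim (twe_sm_TY 𝒪
          (twe_fx_frame_mono (twe_di_pair_ker_le p Q Th M hQ hQM hTh hThM) F)) a),
      Function.Surjective c1 ∧
      LinearMap.ker c1 = twe_scrm_aug2 (P := ↥(twe_pr_prim (twe_sm_TY 𝒪 F) a))
        (twe_smod_rho (twe_di_d p Q Th M hQ hQM hTh hThM)
          (twe_di_d_surjective p Q Th M hQ hQM hTh hThM hdisj)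
          (twe_di_d_eq_one_iff p Q Th M hQ hQM hTh hThM) F a) ∧
      (∀ (i : I) (y y' : ↥(twe_pr_prim (twe_sm_TY 𝒪 F) a)),
        (y' : ↥(twe_wl_V 𝒪 𝒪 (twe_GamH M (twe_di_pair p Q Th M hQ hQM hTh hThM).ker))) =
          twe_sm_TY 𝒪 F i y.1 →
        ((c1 y' : ↥(twe_pr_prim (twe_sm_TY 𝒪
            (twe_fx_frame_mono (twe_di_pair_ker_le p Q Th M hQ hQM hTh hThM) F)) a)) :
          ↥(twe_wl_V 𝒪 𝒪 (twe_GamH M (twe_di_hom p Q M hQ hQM).ker))) =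
          twe_sm_TY 𝒪 (twe_fx_frame_mono (twe_di_pair_ker_le p Q Th M hQ hQM hTh hThM) F) i
            (c1 y).1) ∧
      ∀ (δ₁ : twe_Delta p Q) (δ₂ : twe_Delta p Th) (y : ↥(twe_pr_prim (twe_sm_TY 𝒪 F) a)),
        c1 (twe_smod_rho (twe_di_d p Q Th M hQ hQM hTh hThM)
          (twe_di_d_surjective p Q Th M hQ hQM hTh hThM hdisj)
          (twe_di_d_eq_one_iff p Q Th M hQ hQM hTh hThM) F a
            ((δ₁, δ₂) : twe_Delta p Q × twe_Delta p Th) y) =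
          twe_smod_rho (twe_di_d1 p Q M hQ hQM) (twe_di_d1_surjective p Q M hQ hQM)
            (twe_di_d1_eq_one_iff p Q M hQ hQM)
            (twe_fx_frame_mono (twe_di_pair_ker_le p Q Th M hQ hQM hTh hThM) F) a δ₁ (c1 y) :=
  m59mb_scr_big (𝒪 := 𝒪) p Q Th M hQ hQM hTh hThM hdisj hp hp2 hPE hpO F hinj a i₀ hne

end big

end

end Fermat.Agent.M59
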