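import Mathlib
import Fermat.Agent.TW.Aut.SeamBigInst
import Fermat.Agent.M59.EP.Twin.SeamLevelInst
import Fermat.Agent.M59.EP.Twin.SeamRing
import Fermat.Agent.M59.EP.Twin.DatumM1
import Fermat.Agent.M59.S38g.Big.BigC

/-!
M59 / box [C + S38g], BIG-SYSTEM TWIN (helper14), prefix `m59mb_`.  Twin of main's
`TW/Aut/SeamBigInst.lean`: the level data and the big data for the concrete Taylor–Wiles data, ONE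
frame at the big level.  `5 ≤ p` becomes `p ≠ 2`, `¬ p ∣ N` is dropped, the rigidity of the level
`(hrig : m59ep_Rigid p N)` comes right after `hp𝒪`, `hsq` is kept (it is used by `twe_sri_big`).

* `m59mb_sbi_hPE` : `hPE` for `H'' = ker ((ℤ/M)ˣ → Δ_Q × Δ_Th)` from rigidity (twin of
  `m59epw_sli_hPE`, pair form);
* `m59mb_sbi_exists_i0`, `m59mb_sbi_base`, `m59mb_sbi_level` (through `m59epw_sli_data`),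
  `m59mb_sbi_data` (through `m59mb_sbc_data`).

Main's generic `twe_sbi_*` (arithmetic, `κ`, `F'`, `a'`, `π1`, frame) are reused.
-/

set_option autoImplicit false
set_option linter.unusedSectionVars false
set_option linter.unusedVariables false
set_option linter.overlappingInstances false
set_option linter.style.haveILetI false
set_option synthInstance.maxHeartbeats 400000
set_option maxHeartbeats 1000000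

noncomputable section

namespace Fermat.Agent.M59

open IsLocalRing Polynomial CuspForm Fermat.Agent.JT3 Fermat.Agent.LR CongruenceSubgroup
open Fermat.Agent.S56 Fermat.Agent.TW
open scoped MatrixGroups

/-- **`hPE` from rigidity, pair form**: `p` odd, `m59ep_Rigid p N`, `N ∣ M`: every `γ ∈ Γ₀(M)` with
`tr² ≤ 4` lies in `Γ_{H''}`, `H'' = ker ((ℤ/M)ˣ → Δ_Q × Δ_Th)`. -/
theorem m59mb_sbi_hPE {p : ℕ} [Fact p.Prime] (hp2 : p ≠ 2) {N : ℕ} (hrig : m59ep_Rigid p N)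
    {M : ℕ} (hNM : N ∣ M) (Q Th : Finset ℕ) (hQp : ∀ t ∈ Q, t.Prime) (hQM : ∀ t ∈ Q, t ∣ M)
    (hThp : ∀ t ∈ Th, t.Prime) (hThM : ∀ t ∈ Th, t ∣ M) :
    ∀ γ : SL(2, ℤ), γ ∈ Gamma0 M → lrpd_tr γ ^ 2 ≤ 4 →
      γ ∈ twe_GamH M (twe_di_pair p Q Th M hQp hQM hThp hThM).ker := by
  have hp : p.Prime := Fact.out
  intro γ hγ htr
  by_cases h3 : p = 3
  · obtain ⟨r, hr, hrN, hr3⟩ := hrig h3
    exact m59epw_pe_pair_of_rigid p Q Th M hQp hQM hThp hThM (hp.odd_of_ne_two hp2) hr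
      (hrN.trans hNM) hr3 γ hγ htr
  · have h2' : Nat.Coprime 2 p := (Nat.coprime_primes Nat.prime_two hp).2 (Ne.symm hp2)
    have h3' : Nat.Coprime 3 p := (Nat.coprime_primes Nat.prime_three hp).2 (Ne.symm h3)
    have h12 : Nat.Coprime 12 p := by
      have h : (12 : ℕ) = 2 ^ 2 * 3 := by norm_num
      rw [h]
      exact Nat.Coprime.mul_left (Nat.Coprime.pow_left 2 h2') h3'
    exact m59epw_pe_pair_of_coprime p Q Th M hQp hQM hThp hThM h12 γ hγ htr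

section exist

variable {p : ℕ} [Fact p.Prime]
  {𝒪 : Type} [CommRing 𝒪] [IsDomain 𝒪] [IsDiscreteValuationRing 𝒪]
  [IsAdicComplete (maximalIdeal 𝒪) 𝒪] [Finite (ResidueField 𝒪)] [CharZero 𝒪]

/-- a non-Eisenstein good prime, at any level. -/
theorem m59mb_sbi_exists_i0 (hp2 : p ≠ 2) (hp𝒪 : (p : 𝒪) ∈ maximalIdeal 𝒪)
    {A : ℕ} [NeZero A] {S₁ : Finset ℕ}
    (θ₁ : heckeAlgebra A 2 (↑S₁ : Set ℕ) →+* ResidueField 𝒪)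
    (ρbar : ResidualGaloisRep (ResidueField 𝒪)) (hc₁ : twt_Compat θ₁ ρbar)
    (hirr : ρbar.IsAbsolutelyIrreducible)
    (a : twe_sm_Idx A S₁ → 𝒪) (ha : twe_sm_IsLift θ₁ a) :
    ∃ i₀ : twe_sm_Idx A S₁, residue 𝒪 (a i₀) ≠ ((i₀.1 + 1 : ℕ) : ResidueField 𝒪) := by
  haveI : CharP (ResidueField 𝒪) p := s56a_charP p hp𝒪
  have hp : p.Prime := Fact.out
  obtain ⟨ℓ, hℓ, hℓN, hℓS, -, -, h1, h2⟩ := twe_ne_main_eis (p := p) hp2 θ₁ ρbar hc₁ hirr p hp.pos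
    (dvd_refl p) ∅
  refine ⟨⟨ℓ, hℓ, hℓN, hℓS⟩, ?_⟩
  rw [ha ⟨ℓ, hℓ, hℓN, hℓS⟩]
  intro h3
  apply h2
  rw [h3]
  push_cast
  rfl

variable {N : ℕ} [NeZero N] {S : Finset ℕ} {θ : heckeAlgebra N 2 (↑S : Set ℕ) →+* ResidueField 𝒪}

/-- **(C1) at the big balanced level** `(twe_Nbal N Q Th, S ∪ Q)`. -/
theorem m59mb_sbi_base (hp2 : p ≠ 2) (hp𝒪 : (p : 𝒪) ∈ maximalIdeal 𝒪)
    (hpS : p ∈ S) (hNS : ∀ ℓ : ℕ, ℓ.Prime → ℓ ∣ N → ℓ ∈ S)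
    (ρbar : ResidualGaloisRep (ResidueField 𝒪)) (hcompat : twt_Compat θ ρbar)
    (hirr : ρbar.IsAbsolutelyIrreducible)
    (Q : Finset ℕ) (hQS : ∀ t ∈ Q, t ∉ S) (hTW : twe_IsTWSet θ p Q)
    (Th : Finset ℕ) [NeZero (twe_Nbal N Q Th)] (hTh : ∀ ℓ ∈ Th, ℓ.Prime ∧ ℓ ∣ N) :
    ∃ θ'' : heckeAlgebra (twe_Nbal N Q Th) 2 (↑(S ∪ Q) : Set ℕ) →+* ResidueField 𝒪,
      (∀ (ℓ : ℕ) (hℓ : ℓ.Prime) (h1 : ¬ ℓ ∣ twe_Nbal N Q Th) (h2 : ℓ ∉ (↑(S ∪ Q) : Set ℕ))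
        (h3 : ¬ ℓ ∣ N) (h4 : ℓ ∉ (↑S : Set ℕ)),
        θ'' (heckeAlgebra.T hℓ h1 h2) = θ (heckeAlgebra.T hℓ h3 h4)) ∧
      twt_Compat θ'' ρbar ∧ ∃ B'' : twe_Base 𝒪 (twe_Nbal N Q Th) (S ∪ Q) θ'', B''.IsFull :=
  m59epw_sg_base_at m59epw_dt_M1F p hp2 𝒪 hp𝒪 N S θ ρbar hcompat hirr (twe_Nbal N Q Th)
    (twe_sbi_dvd_N N Q Th) (S ∪ Q)
    Finset.subset_union_left (Finset.mem_union_left _ hpS)
    (twe_sbi_hNS'' hNS (fun t ht => (hTW t ht).1) hTh)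

end exist

section data

variable {p : ℕ} [Fact p.Prime]
  {𝒪 : Type} [CommRing 𝒪] [IsDomain 𝒪] [IsDiscreteValuationRing 𝒪]
  [IsAdicComplete (maximalIdeal 𝒪) 𝒪] [Finite (ResidueField 𝒪)] [CharZero 𝒪]
  {N : ℕ} [NeZero N] {S : Finset ℕ} {θ : heckeAlgebra N 2 (↑S : Set ℕ) →+* ResidueField 𝒪}

/-- **the level data** (ONE frame at the big level). -/
def m59mb_sbi_level (hp2 : p ≠ 2) (hp𝒪 : (p : 𝒪) ∈ maximalIdeal 𝒪) (hrig : m59ep_Rigid p N)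
    (hsq : Squarefree N) (hpS : p ∈ S) (hNS : ∀ ℓ : ℕ, ℓ.Prime → ℓ ∣ N → ℓ ∈ S)
    (ρbar : ResidualGaloisRep (ResidueField 𝒪)) (hcompat : twt_Compat θ ρbar)
    (hirr : ρbar.IsAbsolutelyIrreducible)
    (B : twe_Base 𝒪 N S θ) (hfull : B.IsFull)
    (Q : Finset ℕ) [NeZero (twe_Nbal N Q ∅)] (hQS : ∀ t ∈ Q, t ∉ S) (hTW : twe_IsTWSet θ p Q)
    (Th : Finset ℕ) [NeZero (twe_Nbal N Q Th)] (hTh : ∀ ℓ ∈ Th, ℓ.Prime ∧ ℓ ∣ N)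
    (θ' : heckeAlgebra (twe_Nbal N Q ∅) 2 (↑(S ∪ Q) : Set ℕ) →+* ResidueField 𝒪)
    (θ'_eq : ∀ (ℓ : ℕ) (hℓ : ℓ.Prime) (h1 : ¬ ℓ ∣ twe_Nbal N Q ∅) (h2 : ℓ ∉ (↑(S ∪ Q) : Set ℕ))
      (h3 : ¬ ℓ ∣ N) (h4 : ℓ ∉ (↑S : Set ℕ)),
      θ' (heckeAlgebra.T hℓ h1 h2) = θ (heckeAlgebra.T hℓ h3 h4))
    (B' : twe_Base 𝒪 (twe_Nbal N Q ∅) (S ∪ Q) θ') (hfull' : B'.IsFull)
    (θ'' : heckeAlgebra (twe_Nbal N Q Th) 2 (↑(S ∪ Q) : Set ℕ) →+* ResidueField 𝒪)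
    (θ''_eq : ∀ (ℓ : ℕ) (hℓ : ℓ.Prime) (h1 : ¬ ℓ ∣ twe_Nbal N Q Th) (h2 : ℓ ∉ (↑(S ∪ Q) : Set ℕ))
      (h3 : ¬ ℓ ∣ N) (h4 : ℓ ∉ (↑S : Set ℕ)),
      θ'' (heckeAlgebra.T hℓ h1 h2) = θ (heckeAlgebra.T hℓ h3 h4))
    (hc'' : twt_Compat θ'' ρbar)
    (B'' : twe_Base 𝒪 (twe_Nbal N Q Th) (S ∪ Q) θ'') (hfull'' : B''.IsFull)
    {M : ℕ} [NeZero M] (hM : M = N * ∏ t ∈ Q, t)
    (hQp : ∀ t ∈ Q, t.Prime) (hQM : ∀ t ∈ Q, t ∣ M)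
    (hThp : ∀ t ∈ Th, t.Prime) (hThM : ∀ t ∈ Th, t ∣ M)
    (F'' : twe_sm_Frame M (twe_di_pair p Q Th M hQp hQM hThp hThM).ker
      (twe_sm_q (twe_Nbal N Q Th) (S ∪ Q)))
    (a'' : twe_sm_Idx (twe_Nbal N Q Th) (S ∪ Q) → 𝒪) (ha'' : twe_sm_IsLift θ'' a'') :
    twe_mk_LevelData B p Q :=
  m59epw_sli_data hp2 hp𝒪 hrig hpS hNS ρbar hcompat hirr B hfull Q hQS hTW θ' θ'_eq B' hfull' hM
    hQp hQM (twe_sbi_F' hNS hTh hQp hQM hThp hThM F'') (twe_sbi_a' hNS hTh a'')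
    (twe_sbi_ha' hNS hTh θ' θ'_eq θ'' θ''_eq a'' ha'')

/-- **the big data** over `(m59mb_sbi_level …).toLevel`. -/
def m59mb_sbi_data (hp2 : p ≠ 2) (hp𝒪 : (p : 𝒪) ∈ maximalIdeal 𝒪) (hrig : m59ep_Rigid p N)
    (hsq : Squarefree N) (hpS : p ∈ S) (hNS : ∀ ℓ : ℕ, ℓ.Prime → ℓ ∣ N → ℓ ∈ S)
    (ρbar : ResidualGaloisRep (ResidueField 𝒪)) (hcompat : twt_Compat θ ρbar)
    (hirr : ρbar.IsAbsolutelyIrreducible)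
    (B : twe_Base 𝒪 N S θ) (hfull : B.IsFull)
    (Q : Finset ℕ) [NeZero (twe_Nbal N Q ∅)] (hQS : ∀ t ∈ Q, t ∉ S) (hTW : twe_IsTWSet θ p Q)
    (Th : Finset ℕ) [NeZero (twe_Nbal N Q Th)] (hTh : ∀ ℓ ∈ Th, ℓ.Prime ∧ ℓ ∣ N)
    (θ' : heckeAlgebra (twe_Nbal N Q ∅) 2 (↑(S ∪ Q) : Set ℕ) →+* ResidueField 𝒪)
    (θ'_eq : ∀ (ℓ : ℕ) (hℓ : ℓ.Prime) (h1 : ¬ ℓ ∣ twe_Nbal N Q ∅) (h2 : ℓ ∉ (↑(S ∪ Q) : Set ℕ))
      (h3 : ¬ ℓ ∣ N) (h4 : ℓ ∉ (↑S : Set ℕ)),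
      θ' (heckeAlgebra.T hℓ h1 h2) = θ (heckeAlgebra.T hℓ h3 h4))
    (B' : twe_Base 𝒪 (twe_Nbal N Q ∅) (S ∪ Q) θ') (hfull' : B'.IsFull)
    (θ'' : heckeAlgebra (twe_Nbal N Q Th) 2 (↑(S ∪ Q) : Set ℕ) →+* ResidueField 𝒪)
    (θ''_eq : ∀ (ℓ : ℕ) (hℓ : ℓ.Prime) (h1 : ¬ ℓ ∣ twe_Nbal N Q Th) (h2 : ℓ ∉ (↑(S ∪ Q) : Set ℕ))
      (h3 : ¬ ℓ ∣ N) (h4 : ℓ ∉ (↑S : Set ℕ)),
      θ'' (heckeAlgebra.T hℓ h1 h2) = θ (heckeAlgebra.T hℓ h3 h4))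
    (hc'' : twt_Compat θ'' ρbar)
    (B'' : twe_Base 𝒪 (twe_Nbal N Q Th) (S ∪ Q) θ'') (hfull'' : B''.IsFull)
    {M : ℕ} [NeZero M] (hM : M = N * ∏ t ∈ Q, t)
    (hQp : ∀ t ∈ Q, t.Prime) (hQM : ∀ t ∈ Q, t ∣ M)
    (hThp : ∀ t ∈ Th, t.Prime) (hThM : ∀ t ∈ Th, t ∣ M)
    (F'' : twe_sm_Frame M (twe_di_pair p Q Th M hQp hQM hThp hThM).ker
      (twe_sm_q (twe_Nbal N Q Th) (S ∪ Q)))
    (a'' : twe_sm_Idx (twe_Nbal N Q Th) (S ∪ Q) → 𝒪) (ha'' : twe_sm_IsLift θ'' a'') :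
    twe_mk_BigData (m59mb_sbi_level hp2 hp𝒪 hrig hsq hpS hNS ρbar hcompat hirr B hfull Q hQS hTW Th hTh θ' θ'_eq B' hfull' θ'' θ''_eq hc'' B'' hfull'' hM hQp hQM hThp hThM F'' a'' ha'').toLevel Th :=
  m59mb_sbc_data (m59mb_sbi_level hp2 hp𝒪 hrig hsq hpS hNS ρbar hcompat hirr B hfull Q hQS hTW Th hTh θ' θ'_eq B' hfull' θ'' θ''_eq hc'' B'' hfull'' hM hQp hQM hThp hThM F'' a'' ha'') B'' hfull''
    (twe_sbi_hNS'' hNS hQp hTh)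
    (twe_sbi_exists_pi1 hNS hQp hTh θ' θ'_eq B' θ'' θ''_eq B'' hfull'').choose
    (twe_sbi_exists_pi1 hNS hQp hTh θ' θ'_eq B' θ'' θ''_eq B'' hfull'').choose_spec
    hQp hQM hThp hThM (twe_sbi_disjoint (twe_sli_hQ hNS hQS hTW) hTh) Fact.out hp2
    (m59mb_sbi_hPE hp2 hrig (Dvd.intro _ hM.symm) Q Th hQp hQM hThp hThM) hp𝒪 F'' a'' ha''
    (twe_sri_big 𝒪 p hsq (twe_sli_hQ hNS hQS hTW) hTh hM
      ((Fact.out : p.Prime).odd_of_ne_two hp2) hQp hQM hThp hThM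
      (twe_sm_q (twe_Nbal N Q Th) (S ∪ Q)) (fun i => i.2.2.1) F'')
    (m59mb_sbi_exists_i0 hp2 hp𝒪 θ'' ρbar hc'' hirr a'' ha'').choose
    (m59mb_sbi_exists_i0 hp2 hp𝒪 θ'' ρbar hc'' hirr a'' ha'').choose_spec
    (twe_sbi_kappa (twe_sbi_hgood hNS hTh)
      (twe_fx_frame_mono (twe_di_pair_ker_le p Q Th M hQp hQM hThp hThM) F'') a'')
    (fun ℓ'' ℓ' h y y' hy => twe_sbi_kappa_psi (twe_sbi_hgood hNS hTh) B' hfull'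
      (twe_sli_hNS' hNS hQp)
      (twe_fx_frame_mono (twe_di_pair_ker_le p Q Th M hQp hQM hThp hThM) F'') a'' _ _ ℓ'' ℓ' h y y' hy)
    (fun δ₁ y => twe_sbi_kappa_rho (twe_sbi_hgood hNS hTh) (twe_di_d1 p Q M hQp hQM)
      (twe_di_d1_surjective p Q M hQp hQM) (twe_di_d1_eq_one_iff p Q M hQp hQM)
      (twe_fx_frame_mono (twe_di_pair_ker_le p Q Th M hQp hQM hThp hThM) F'') a'' δ₁ y)
    θ''_eq

end data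

end Fermat.Agent.M59
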