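/-
M59 / box [C + S38g], BIG-SYSTEM TWIN (helper14), prefix `m59mb_`.  Twin of the `big` half of main's
`TW/Aut/SeamOldInst.lean` (helper26): OLD-AT-`t` (`t ∈ Q`, `t ∈ Th`) for the big system
`(m59mb_sbc_data …).toBig`.  `5 ≤ p`, `¬ p ∣ M` become `p ≠ 2` + `hPE`; `twe_soi_gen` ↦ helper5's
`m59epl_old_gen`.  Same proofs.
-/
import Mathlib
import Fermat.Agent.TW.Aut.SeamOldInst
import Fermat.Agent.M59.EP.LG2.OldGen
import Fermat.Agent.M59.S38g.Big.BigC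

set_option autoImplicit false
set_option linter.unusedSectionVars false
set_option linter.unusedVariables false
set_option linter.style.haveILetI false

namespace Fermat.Agent.M59

open Polynomial CuspForm IsLocalRing Fermat.Agent.JT3 CongruenceSubgroup Fermat.Agent.TW Fermat.Agent.LR
open scoped MatrixGroups

noncomputable section

section big

variable {𝒪 : Type} [CommRing 𝒪] [IsDomain 𝒪] [IsDiscreteValuationRing 𝒪]
  [IsAdicComplete (maximalIdeal 𝒪) 𝒪] [Finite (ResidueField 𝒪)] [CharZero 𝒪]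
  {N : ℕ} [NeZero N] {S : Finset ℕ} {θ : heckeAlgebra N 2 (↑S : Set ℕ) →+* ResidueField 𝒪}
  {B : twe_Base 𝒪 N S θ} {p : ℕ} {Q : Finset ℕ} [NeZero (twe_Nbal N Q ∅)]
  (D' : twe_mk_LevelData B p Q) {Th : Finset ℕ} [NeZero (twe_Nbal N Q Th)]
  {θ'' : heckeAlgebra (twe_Nbal N Q Th) 2 (↑(S ∪ Q) : Set ℕ) →+* ResidueField 𝒪}
  (B'' : twe_Base 𝒪 (twe_Nbal N Q Th) (S ∪ Q) θ'') (hfull'' : B''.IsFull)
  (hNS'' : ∀ ℓ : ℕ, ℓ.Prime → ℓ ∣ twe_Nbal N Q Th → ℓ ∈ S ∪ Q)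
  (π1 : B''.T →ₐ[𝒪] D'.B'.T)
  (hπ1 : ∀ (ℓ : ℕ) (hℓ : ℓ.Prime) (h1 : ¬ ℓ ∣ twe_Nbal N Q Th) (h2 : ℓ ∉ (↑(S ∪ Q) : Set ℕ))
    (h3 : ¬ ℓ ∣ twe_Nbal N Q ∅),
    π1 (B''.H.π (heckeAlgebra.T hℓ h1 h2)) = D'.B'.H.π (heckeAlgebra.T hℓ h3 h2))
  {M : ℕ} [NeZero M] (hQp : ∀ t ∈ Q, t.Prime) (hQM : ∀ t ∈ Q, t ∣ M)
  (hThp : ∀ t ∈ Th, t.Prime) (hThM : ∀ t ∈ Th, t ∣ M) (hdisj : Disjoint Q Th)
  (hp : p.Prime) (hp2 : p ≠ 2)
  (hPE : ∀ γ : SL(2, ℤ), γ ∈ Gamma0 M → lrpd_tr γ ^ 2 ≤ 4 →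
    γ ∈ twe_GamH M (twe_di_pair p Q Th M hQp hQM hThp hThM).ker)
  (hpO : (p : 𝒪) ∈ maximalIdeal 𝒪)
  (F'' : twe_sm_Frame M (twe_di_pair p Q Th M hQp hQM hThp hThM).ker
    (twe_sm_q (twe_Nbal N Q Th) (S ∪ Q)))
  (a'' : twe_sm_Idx (twe_Nbal N Q Th) (S ∪ Q) → 𝒪) (ha'' : twe_sm_IsLift θ'' a'')
  (hrel'' : twe_at_Rel (twe_sm_TX 𝒪 (twe_Nbal N Q Th) (twe_sm_q (twe_Nbal N Q Th) (S ∪ Q)))
    (twe_sm_TY 𝒪 F''))
  (i₀ : twe_sm_Idx (twe_Nbal N Q Th) (S ∪ Q))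
  (hne : residue 𝒪 (a'' i₀) ≠ ((i₀.1 + 1 : ℕ) : ResidueField 𝒪))
  (κ : ↥(twe_pr_prim (twe_sm_TY 𝒪 (twe_sbc_F' hQp hQM hThp hThM F'')) a'') ≃ₗ[𝒪] D'.P)
  (hκψ : ∀ (ℓ'' : twe_sm_Idx (twe_Nbal N Q Th) (S ∪ Q))
    (ℓ' : twe_sm_Idx (twe_Nbal N Q ∅) (S ∪ Q)), ℓ'.1 = ℓ''.1 →
    ∀ y y' : ↥(twe_pr_prim (twe_sm_TY 𝒪 (twe_sbc_F' hQp hQM hThp hThM F'')) a''),
      (y' : ↥(twe_wl_V 𝒪 𝒪 (twe_GamH M (twe_di_hom p Q M hQp hQM).ker))) =
        twe_sm_TY 𝒪 (twe_sbc_F' hQp hQM hThp hThM F'') ℓ'' y.1 →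
      κ y' = D'.ψ (twe_sa_tau D'.B' ℓ') (κ y))
  (hκρ : ∀ (δ₁ : twe_Delta p Q)
    (y : ↥(twe_pr_prim (twe_sm_TY 𝒪 (twe_sbc_F' hQp hQM hThp hThM F'')) a'')),
    κ (twe_sbc_rho' hQp hQM hThp hThM F'' a'' δ₁ y) = D'.ρ δ₁ (κ y))
  (hθ'' : ∀ (ℓ : ℕ) (hℓ : ℓ.Prime) (h1 : ¬ ℓ ∣ twe_Nbal N Q Th)
    (h2 : ℓ ∉ (↑(S ∪ Q) : Set ℕ)) (h3 : ¬ ℓ ∣ N) (h4 : ℓ ∉ (↑S : Set ℕ)),
    θ'' (heckeAlgebra.T hℓ h1 h2) = θ (heckeAlgebra.T hℓ h3 h4))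
  (hsq : Squarefree N) (hQ : ∀ t ∈ Q, t.Prime ∧ ¬ t ∣ N) (hTh : ∀ ℓ ∈ Th, ℓ.Prime ∧ ℓ ∣ N)
  (hM : M = N * ∏ t ∈ Q, t)
  (hpS : p ∈ S) (ρbar : ResidualGaloisRep (ResidueField 𝒪))
  (hc : twt_Compat θ ρbar) (hirr : ρbar.IsAbsolutelyIrreducible)

include hsq hQ hTh hM hpS hc hirr in
/-- **OLD-AT-`t`, `t ∈ Q`**, for the big system `(m59mb_sbc_data …).toBig`. -/
theorem m59mb_soi_bigQ (t : ℕ) (ht : t ∈ Q) :
    ∃ _ : NeZero (twe_Nbal N Q Th / t),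
      Nonempty (twe_OldAt (m59mb_sbc_data D' B'' hfull'' hNS'' π1 hπ1 hQp hQM hThp hThM hdisj hp hp2
          hPE hpO F'' a'' ha'' hrel'' i₀ hne κ hκψ hκρ hθ'').toBig.H''
        ((m59mb_sbc_data D' B'' hfull'' hNS'' π1 hπ1 hQp hQM hThp hThM hdisj hp hp2 hPE hpO
          F'' a'' ha'' hrel'' i₀ hne κ hκψ hκρ hθ'').toBig.diaQ t ht) t) := by
  classical
  haveI : Fact p.Prime := ⟨hp⟩
  have hodd : Odd p := hp.odd_of_ne_two hp2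
  have htp : t.Prime := hQp t ht
  have htA : t ∣ twe_Nbal N Q Th := twe_di_dvd_Nbal_Q N Q Th ht
  have hA0 : twe_Nbal N Q Th ≠ 0 := NeZero.ne _
  haveI hne0 : NeZero (twe_Nbal N Q Th / t) :=
    ⟨(Nat.div_pos (Nat.le_of_dvd (Nat.pos_of_ne_zero hA0) htA) htp.pos).ne'⟩
  refine ⟨hne0, ?_⟩
  have hNA : N ∣ twe_Nbal N Q Th := by
    unfold twe_Nbal
    exact Dvd.dvd.mul_right (Dvd.intro _ rfl) _
  have htN : t * N ∣ twe_Nbal N Q Th := by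
    unfold twe_Nbal
    rw [mul_comm t N]
    exact Dvd.dvd.mul_right (mul_dvd_mul_left N ((dvd_pow_self t two_ne_zero).trans
      (Finset.dvd_prod_of_mem (fun t => t ^ 2) ht))) _
  have hNAt : N ∣ twe_Nbal N Q Th / t := Nat.dvd_div_of_mul_dvd htN
  have hAtA : twe_Nbal N Q Th / t ∣ twe_Nbal N Q Th := Nat.div_dvd_of_dvd htA
  haveI : Finite (twe_Delta p Q) := twe_chi_delta_finite p Q
  haveI : Finite (twe_Delta p Th) := twe_chi_delta_finite p Th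
  haveI : Finite (twe_Delta p (Q.erase t)) := twe_chi_delta_finite p (Q.erase t)
  haveI : Fintype (twe_Delta p Q) := Fintype.ofFinite _
  haveI : Fintype (twe_Delta p Th) := Fintype.ofFinite _
  haveI : Fintype (twe_Delta p (Q.erase t)) := Fintype.ofFinite _
  have hQp' : ∀ t' ∈ Q.erase t, t'.Prime := fun t' ht' => hQp t' (Finset.mem_of_mem_erase ht')
  have hQM' : ∀ t' ∈ Q.erase t, t' ∣ M := fun t' ht' => hQM t' (Finset.mem_of_mem_erase ht')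
  have hle := twe_di_pair_eraseQ_le p Q Th M hQp hQM hThp hThM t
  have hrelt := twe_sri_oldBigQ 𝒪 p hsq hQ hTh hM hodd t ht hQp' hQM' hThp hThM
    (twe_sm_q (twe_Nbal N Q Th) (S ∪ Q)) (fun i hd => i.2.2.1 (hd.trans hAtA))
    (twe_fx_frame_mono hle F'')
  have hcyc : ∀ g : Gamma0 M, (g : SL(2, ℤ)) ∈
      twe_GamH M (twe_di_pair p (Q.erase t) Th M hQp' hQM' hThp hThM).ker →
      ∃ k : ℕ, twe_di_d p Q Th M hQp hQM hThp hThM g =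
        ((twe_gen p Q t ht, 1) : twe_Delta p Q × twe_Delta p Th) ^ k := by
    intro g hg
    rw [twe_mem_GamH] at hg
    exact twe_di_pair_eraseQ_cyclic p Q Th M hQp hQM hThp hThM t ht (twe_dUnit M g) hg.2
  have key := m59epl_old_gen (p := p) hp2 hpO θ ρbar hc hirr hNA
    (Finset.subset_union_left (s₁ := S) (s₂ := Q)) (Finset.mem_union_left Q hpS) hNS'' hθ'' B''
    hfull'' hNAt hAtA hle F'' a'' ha'' hrel'' hrelt
    (twe_di_neg_one_mem_GamH p Q Th M hQp hQM hThp hThM hodd)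
    hPE
    (twe_di_d p Q Th M hQp hQM hThp hThM)
    (twe_di_d_surjective p Q Th M hQp hQM hThp hThM hdisj)
    (twe_di_d_eq_one_iff p Q Th M hQp hQM hThp hThM)
    (twe_di_d p (Q.erase t) Th M hQp' hQM' hThp hThM)
    (twe_di_d_surjective p (Q.erase t) Th M hQp' hQM' hThp hThM
      (hdisj.mono_left (Finset.erase_subset t Q)))
    (twe_di_d_eq_one_iff p (Q.erase t) Th M hQp' hQM' hThp hThM)
    (n := max (twe_di_exp p Q) (twe_di_exp p Th))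
    (twe_di_pair_delta_pow_exp p Q Th)
    (twe_di_pair_delta_pow p (Q.erase t) Th _
      (fun t' ht' => (twe_di_le_exp p Q (Finset.mem_of_mem_erase ht')).trans (le_max_left _ _))
      (fun t' ht' => (twe_di_le_exp p Th ht').trans (le_max_right _ _)))
    ((twe_gen p Q t ht, 1) : twe_Delta p Q × twe_Delta p Th) hcyc
  obtain ⟨θt, Bt, πt, hπt, hk⟩ := key
  exact twe_sok_oldAt_bigQ (m59mb_sbc_data D' B'' hfull'' hNS'' π1 hπ1 hQp hQM hThp hThM hdisj hp hp2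
    hPE hpO F'' a'' ha'' hrel'' i₀ hne κ hκψ hκρ hθ'') t ht Bt πt hπt hk

include hsq hQ hTh hM hpS hc hirr in
/-- **OLD-AT-`t`, `t ∈ Th`**, for the big system `(m59mb_sbc_data …).toBig`. -/
theorem m59mb_soi_bigTh (t : ℕ) (ht : t ∈ Th) :
    ∃ _ : NeZero (twe_Nbal N Q Th / t),
      Nonempty (twe_OldAt (m59mb_sbc_data D' B'' hfull'' hNS'' π1 hπ1 hQp hQM hThp hThM hdisj hp hp2
          hPE hpO F'' a'' ha'' hrel'' i₀ hne κ hκψ hκρ hθ'').toBig.H''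
        ((m59mb_sbc_data D' B'' hfull'' hNS'' π1 hπ1 hQp hQM hThp hThM hdisj hp hp2 hPE hpO
          F'' a'' ha'' hrel'' i₀ hne κ hκψ hκρ hθ'').toBig.diaTh t ht) t) := by
  classical
  haveI : Fact p.Prime := ⟨hp⟩
  have hodd : Odd p := hp.odd_of_ne_two hp2
  have htp : t.Prime := hThp t ht
  have htA : t ∣ twe_Nbal N Q Th := twe_di_dvd_Nbal_Th N Q Th ht
  have hA0 : twe_Nbal N Q Th ≠ 0 := NeZero.ne _
  haveI hne0 : NeZero (twe_Nbal N Q Th / t) :=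
    ⟨(Nat.div_pos (Nat.le_of_dvd (Nat.pos_of_ne_zero hA0) htA) htp.pos).ne'⟩
  refine ⟨hne0, ?_⟩
  have hNA : N ∣ twe_Nbal N Q Th := by
    unfold twe_Nbal
    exact Dvd.dvd.mul_right (Dvd.intro _ rfl) _
  have htN : t * N ∣ twe_Nbal N Q Th := by
    unfold twe_Nbal
    rw [mul_comm t N, mul_assoc]
    exact mul_dvd_mul_left N (Dvd.dvd.mul_left (Finset.dvd_prod_of_mem (fun t => t) ht) _)
  have hNAt : N ∣ twe_Nbal N Q Th / t := Nat.dvd_div_of_mul_dvd htN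
  have hAtA : twe_Nbal N Q Th / t ∣ twe_Nbal N Q Th := Nat.div_dvd_of_dvd htA
  haveI : Finite (twe_Delta p Q) := twe_chi_delta_finite p Q
  haveI : Finite (twe_Delta p Th) := twe_chi_delta_finite p Th
  haveI : Finite (twe_Delta p (Th.erase t)) := twe_chi_delta_finite p (Th.erase t)
  haveI : Fintype (twe_Delta p Q) := Fintype.ofFinite _
  haveI : Fintype (twe_Delta p Th) := Fintype.ofFinite _
  haveI : Fintype (twe_Delta p (Th.erase t)) := Fintype.ofFinite _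
  have hThp' : ∀ t' ∈ Th.erase t, t'.Prime := fun t' ht' => hThp t' (Finset.mem_of_mem_erase ht')
  have hThM' : ∀ t' ∈ Th.erase t, t' ∣ M := fun t' ht' => hThM t' (Finset.mem_of_mem_erase ht')
  have hle := twe_di_pair_eraseTh_le p Q Th M hQp hQM hThp hThM t
  have hrelt := twe_sri_oldBigTh 𝒪 p hsq hQ hTh hM hodd t ht hQp hQM hThp' hThM'
    (twe_sm_q (twe_Nbal N Q Th) (S ∪ Q)) (fun i hd => i.2.2.1 (hd.trans hAtA))
    (twe_fx_frame_mono hle F'')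
  have hcyc : ∀ g : Gamma0 M, (g : SL(2, ℤ)) ∈
      twe_GamH M (twe_di_pair p Q (Th.erase t) M hQp hQM hThp' hThM').ker →
      ∃ k : ℕ, twe_di_d p Q Th M hQp hQM hThp hThM g =
        ((1, twe_gen p Th t ht) : twe_Delta p Q × twe_Delta p Th) ^ k := by
    intro g hg
    rw [twe_mem_GamH] at hg
    exact twe_di_pair_eraseTh_cyclic p Q Th M hQp hQM hThp hThM t ht (twe_dUnit M g) hg.2
  have key := m59epl_old_gen (p := p) hp2 hpO θ ρbar hc hirr hNA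
    (Finset.subset_union_left (s₁ := S) (s₂ := Q)) (Finset.mem_union_left Q hpS) hNS'' hθ'' B''
    hfull'' hNAt hAtA hle F'' a'' ha'' hrel'' hrelt
    (twe_di_neg_one_mem_GamH p Q Th M hQp hQM hThp hThM hodd)
    hPE
    (twe_di_d p Q Th M hQp hQM hThp hThM)
    (twe_di_d_surjective p Q Th M hQp hQM hThp hThM hdisj)
    (twe_di_d_eq_one_iff p Q Th M hQp hQM hThp hThM)
    (twe_di_d p Q (Th.erase t) M hQp hQM hThp' hThM')
    (twe_di_d_surjective p Q (Th.erase t) M hQp hQM hThp' hThM'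
      (hdisj.mono_right (Finset.erase_subset t Th)))
    (twe_di_d_eq_one_iff p Q (Th.erase t) M hQp hQM hThp' hThM')
    (n := max (twe_di_exp p Q) (twe_di_exp p Th))
    (twe_di_pair_delta_pow_exp p Q Th)
    (twe_di_pair_delta_pow p Q (Th.erase t) _
      (fun t' ht' => (twe_di_le_exp p Q ht').trans (le_max_left _ _))
      (fun t' ht' => (twe_di_le_exp p Th (Finset.mem_of_mem_erase ht')).trans
        (le_max_right _ _)))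
    ((1, twe_gen p Th t ht) : twe_Delta p Q × twe_Delta p Th) hcyc
  obtain ⟨θt, Bt, πt, hπt, hk⟩ := key
  exact twe_sok_oldAt_bigTh (m59mb_sbc_data D' B'' hfull'' hNS'' π1 hπ1 hQp hQM hThp hThM hdisj hp
    hp2 hPE hpO F'' a'' ha'' hrel'' i₀ hne κ hκψ hκρ hθ'') t ht Bt πt hπt hk

end big

end

end Fermat.Agent.M59
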