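import Mathlib
import Fermat.Agent.M59.S38g.Big.BigInst
import Fermat.Agent.M59.S38g.Big.BigNewAt
import Fermat.Agent.M59.S38g.Big.OldBig

/-!
M59 / box [C + S38g], BIG-SYSTEM TWIN (helper14), prefix `m59mb_`.  Twin of main's
`TW/Aut/SeamBigInst2.lean` + the `islg` section of `TW/Aut/SeamBigInst3.lean`: with `Ξ` the argument
list of `m59mb_sbi_data`,

* `m59mb_sbi_newQ`, `m59mb_sbi_newTh` : the NEW-AT-`t` halves of `Bg.IsLG2`, `Bg = (m59mb_sbi_data Ξ).toBig`;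
* `m59mb_sbi_oldQ`, `m59mb_sbi_oldTh` : the OLD-AT-`t` halves;
* `m59mb_sbi_isLG2` : `(m59mb_sbi_data Ξ).toBig.IsLG2`.
-/

set_option autoImplicit false
set_option linter.unusedSectionVars false
set_option linter.unusedVariables false
set_option linter.overlappingInstances false
set_option linter.style.haveILetI false
set_option synthInstance.maxHeartbeats 400000
set_option maxHeartbeats 1000000

noncomputable section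

namespace Fermat.Agent.M59

open IsLocalRing Polynomial CuspForm Fermat.Agent.JT3 Fermat.Agent.LR CongruenceSubgroup
open Fermat.Agent.S56 Fermat.Agent.TW
open scoped MatrixGroups

section consumer

variable {p : ℕ} [Fact p.Prime]
  {𝒪 : Type} [CommRing 𝒪] [IsDomain 𝒪] [IsDiscreteValuationRing 𝒪]
  [IsAdicComplete (maximalIdeal 𝒪) 𝒪] [Finite (ResidueField 𝒪)] [CharZero 𝒪]
  {N : ℕ} [NeZero N] {S : Finset ℕ} {θ : heckeAlgebra N 2 (↑S : Set ℕ) →+* ResidueField 𝒪}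

variable (hp2 : p ≠ 2) (hp𝒪 : (p : 𝒪) ∈ maximalIdeal 𝒪) (hrig : m59ep_Rigid p N)
    (hsq : Squarefree N) (hpS : p ∈ S) (hNS : ∀ ℓ : ℕ, ℓ.Prime → ℓ ∣ N → ℓ ∈ S)
    (ρbar : ResidualGaloisRep (ResidueField 𝒪)) (hcompat : twt_Compat θ ρbar)
    (hirr : ρbar.IsAbsolutelyIrreducible)
    (B : twe_Base 𝒪 N S θ) (hfull : B.IsFull)
    (Q : Finset ℕ) [NeZero (twe_Nbal N Q ∅)] (hQS : ∀ t ∈ Q, t ∉ S) (hTW : twe_IsTWSet θ p Q)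
    (Th : Finset ℕ) [NeZero (twe_Nbal N Q Th)] (hTh : ∀ ℓ ∈ Th, ℓ.Prime ∧ ℓ ∣ N)
    (θ' : heckeAlgebra (twe_Nbal N Q ∅) 2 (↑(S ∪ Q) : Set ℕ) →+* ResidueField 𝒪)
    (θ'_eq : ∀ (ℓ : ℕ) (hℓ : ℓ.Prime) (h1 : ¬ ℓ ∣ twe_Nbal N Q ∅) (h2 : ℓ ∉ (↑(S ∪ Q) : Set ℕ))
      (h3 : ¬ ℓ ∣ N) (h4 : ℓ ∉ (↑S : Set ℕ)),
      θ' (heckeAlgebra.T hℓ h1 h2) = θ (heckeAlgebra.T hℓ h3 h4))
    (B' : twe_Base 𝒪 (twe_Nbal N Q ∅) (S ∪ Q) θ') (hfull' : B'.IsFull)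
    (θ'' : heckeAlgebra (twe_Nbal N Q Th) 2 (↑(S ∪ Q) : Set ℕ) →+* ResidueField 𝒪)
    (θ''_eq : ∀ (ℓ : ℕ) (hℓ : ℓ.Prime) (h1 : ¬ ℓ ∣ twe_Nbal N Q Th) (h2 : ℓ ∉ (↑(S ∪ Q) : Set ℕ))
      (h3 : ¬ ℓ ∣ N) (h4 : ℓ ∉ (↑S : Set ℕ)),
      θ'' (heckeAlgebra.T hℓ h1 h2) = θ (heckeAlgebra.T hℓ h3 h4))
    (hc'' : twt_Compat θ'' ρbar)
    (B'' : twe_Base 𝒪 (twe_Nbal N Q Th) (S ∪ Q) θ'') (hfull'' : B''.IsFull)
    {M : ℕ} [NeZero M] (hM : M = N * ∏ t ∈ Q, t)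
    (hQp : ∀ t ∈ Q, t.Prime) (hQM : ∀ t ∈ Q, t ∣ M)
    (hThp : ∀ t ∈ Th, t.Prime) (hThM : ∀ t ∈ Th, t ∣ M)
    (F'' : twe_sm_Frame M (twe_di_pair p Q Th M hQp hQM hThp hThM).ker
      (twe_sm_q (twe_Nbal N Q Th) (S ∪ Q)))
    (a'' : twe_sm_Idx (twe_Nbal N Q Th) (S ∪ Q) → 𝒪) (ha'' : twe_sm_IsLift θ'' a'')

/-- shorthand for the big data. -/
local notation "𝔇" => m59mb_sbi_data hp2 hp𝒪 hrig hsq hpS hNS ρbar hcompat hirr B hfull Q hQS hTW Th hTh θ' θ'_eq B' hfull' θ'' θ''_eq hc'' B'' hfull'' hM hQp hQM hThp hThM F'' a'' ha''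

/-- **NEW-AT-`t`, `t ∈ Q`**, for the big system `(m59mb_sbi_data Ξ).toBig`. -/
theorem m59mb_sbi_newQ (t : ℕ) (ht : t ∈ Q) :
    twe_NewAt (𝔇).toBig.H'' ((𝔇).toBig.diaQ t ht) t := by
  unfold m59mb_sbi_data
  exact m59mb_sbn_Q _ _ _ _ _ _ _ _ _ _ _ _ _ _ _ _ _ _ _ _ _ _ _ _ _ hsq
    (twe_sli_hQ hNS hQS hTW) hTh hM t ht

/-- **NEW-AT-`t`, `t ∈ Th`**, for the big system `(m59mb_sbi_data Ξ).toBig`. -/
theorem m59mb_sbi_newTh (t : ℕ) (ht : t ∈ Th) :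
    twe_NewAt (𝔇).toBig.H'' ((𝔇).toBig.diaTh t ht) t := by
  unfold m59mb_sbi_data
  exact m59mb_sbn_Th _ _ _ _ _ _ _ _ _ _ _ _ _ _ _ _ _ _ _ _ _ _ _ _ _ hsq
    (twe_sli_hQ hNS hQS hTW) hTh hM t ht

/-- **OLD-AT-`t`, `t ∈ Q`**, for the big system `(m59mb_sbi_data Ξ).toBig`. -/
theorem m59mb_sbi_oldQ (t : ℕ) (ht : t ∈ Q) :
    ∃ _ : NeZero (twe_Nbal N Q Th / t),
      Nonempty (twe_OldAt (𝔇).toBig.H'' ((𝔇).toBig.diaQ t ht) t) := by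
  unfold m59mb_sbi_data
  exact m59mb_soi_bigQ _ _ _ _ _ _ _ _ _ _ _ _ _ _ _ _ _ _ _ _ _ _ _ _ _ hsq
    (twe_sli_hQ hNS hQS hTW) hTh hM hpS ρbar hcompat hirr t ht

/-- **OLD-AT-`t`, `t ∈ Th`**, for the big system `(m59mb_sbi_data Ξ).toBig`. -/
theorem m59mb_sbi_oldTh (t : ℕ) (ht : t ∈ Th) :
    ∃ _ : NeZero (twe_Nbal N Q Th / t),
      Nonempty (twe_OldAt (𝔇).toBig.H'' ((𝔇).toBig.diaTh t ht) t) := by
  unfold m59mb_sbi_data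
  exact m59mb_soi_bigTh _ _ _ _ _ _ _ _ _ _ _ _ _ _ _ _ _ _ _ _ _ _ _ _ _ hsq
    (twe_sli_hQ hNS hQS hTW) hTh hM hpS ρbar hcompat hirr t ht

/-- **the [E] → [A] clauses** for the big system `(m59mb_sbi_data Ξ).toBig`. -/
theorem m59mb_sbi_isLG2 : (𝔇).toBig.IsLG2 :=
  ⟨fun t ht =>
    ⟨m59mb_sbi_oldQ hp2 hp𝒪 hrig hsq hpS hNS ρbar hcompat hirr B hfull Q hQS hTW Th hTh θ' θ'_eq B' hfull' θ'' θ''_eq hc'' B'' hfull'' hM hQp hQM hThp hThM F'' a'' ha'' t ht, m59mb_sbi_newQ hp2 hp𝒪 hrig hsq hpS hNS ρbar hcompat hirr B hfull Q hQS hTW Th hTh θ' θ'_eq B' hfull' θ'' θ''_eq hc'' B'' hfull'' hM hQp hQM hThp hThM F'' a'' ha'' t ht⟩,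
   fun t ht =>
    ⟨m59mb_sbi_oldTh hp2 hp𝒪 hrig hsq hpS hNS ρbar hcompat hirr B hfull Q hQS hTW Th hTh θ' θ'_eq B' hfull' θ'' θ''_eq hc'' B'' hfull'' hM hQp hQM hThp hThM F'' a'' ha'' t ht, m59mb_sbi_newTh hp2 hp𝒪 hrig hsq hpS hNS ρbar hcompat hirr B hfull Q hQS hTW Th hTh θ' θ'_eq B' hfull' θ'' θ''_eq hc'' B'' hfull'' hM hQp hQM hThp hThM F'' a'' ha'' t ht⟩⟩

end consumer

end Fermat.Agent.M59
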